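import Fermat.Agent.LT.A2.H142.HeckeSpec

/-!
# Row LT, tower A2, leaf A2.03.8 `WL.WhitHeckeC`: the easy leaves `RInvC`, `UnipC` (helper142)

OFF-MAIN.  Shared lemmas on the torus (`inTorus_mul142`, `adm_mul142`), on the orbital integral
(`intT_congr142`: the integrand only matters on `T¹`, no measurability needed because `μT` is
carried by `T¹`), and the proofs of `RInvC`, `UnipC`.
-/

set_option autoImplicit false

open IsDedekindDomain NumberField AutomorphicForm MeasureTheory
open scoped MatrixGroups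

noncomputable section

namespace Fermat.Agent.LT.A2.H142

open Fermat.Agent.LT.H556 Fermat.Agent.LT.H556.A0 Fermat.Agent.LT.H129

variable {K : Type} [Field K] [NumberField K]

/-! ## The torus -/

theorem torMat_mul142 {R : Type*} [CommRing R] (t n a b a' b' : R) :
    torMat t n a b * torMat t n a' b'
      = torMat t n (a * a' - n * (b * b')) (a * b' + b * a' + t * (b * b')) := by
  unfold torMat
  ext i j
  fin_cases i <;> fin_cases j <;> simp [Matrix.mul_apply, Fin.sum_univ_two] <;> ring

theorem inTorus_mul142 {t n : K} {m m' : G K} (hm : InTorus t n m) (hm' : InTorus t n m') :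
    InTorus t n (m * m') := by
  obtain ⟨a, b, h⟩ := hm
  obtain ⟨a', b', h'⟩ := hm'
  refine ⟨a * a' - algebraMap K (Adl K) n * (b * b'),
    a * b' + b * a' + algebraMap K (Adl K) t * (b * b'), ?_⟩
  rw [Matrix.GeneralLinearGroup.coe_mul, h, h', torMat_mul142]

theorem inTorus_one142 (t n : K) : InTorus t n (1 : G K) := by
  refine ⟨1, 0, ?_⟩
  unfold torMat
  ext i j
  fin_cases i <;> fin_cases j <;> simp

theorem inTorus1_inTorus142 {t n : K} {m : G K} (hm : InTorus1 t n m) : InTorus t n m := hm.1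

theorem adm_mul142 {t n : K} {g m u κ : G K} (h : Adm t n g m) (h' : Adm t n u κ) :
    Adm t n (g * u) (m * κ) :=
  ⟨inTorus_mul142 h.1 h'.1, by rw [map_mul, map_mul, h.2, h'.2]⟩

theorem adm_torus1_mul142 {t n : K} {g m m1 : G K} (h1 : InTorus1 t n m1) (h : Adm t n g m) :
    Adm t n g (m1 * m) :=
  ⟨inTorus_mul142 h1.1 h.1, by rw [map_mul, h1.2, one_mul, h.2]⟩

/-- The torus is commutative. -/
theorem inTorus_comm142 {t n : K} {m m' : G K} (hm : InTorus t n m) (hm' : InTorus t n m') :
    m * m' = m' * m := by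
  obtain ⟨a, b, h⟩ := hm
  obtain ⟨a', b', h'⟩ := hm'
  apply Units.ext
  rw [Matrix.GeneralLinearGroup.coe_mul, Matrix.GeneralLinearGroup.coe_mul, h, h',
    torMat_mul142, torMat_mul142]
  congr 1 <;> ring

/-! ## The orbital integral -/

/-- The orbital integral only depends on the values of the integrand on `T¹`. -/
theorem intT_congr142 (D : KData K) (hM : D.IsMeasured) {f f' : G K → ℂ}
    (h : ∀ m : G K, InTorus1 D.t D.n m → f m = f' m) :
    D.intT {m | InTorus1 D.t D.n m} f = D.intT {m | InTorus1 D.t D.n m} f' := by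
  unfold KData.intT
  letI : MeasurableSpace (G K) := borel (G K)
  apply integral_congr_ae
  have hnull : D.μT {m | InTorus1 D.t D.n m}ᶜ = 0 := hM.carried
  have hae : ∀ᵐ m ∂D.μT, m ∈ {m | InTorus1 D.t D.n m} := by
    rw [ae_iff]
    exact hnull
  have : ∀ᵐ m ∂D.μT, f m = f' m := hae.mono fun m hm => h m hm
  exact ae_restrict_of_ae this

theorem intT_const_mul142 (D : KData K) (c : ℂ) (f : G K → ℂ) (S : Set (G K)) :
    D.intT S (fun m => c * f m) = c * D.intT S f := by
  unfold KData.intT
  letI : MeasurableSpace (G K) := borel (G K)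
  exact integral_const_mul c f

/-! ## `RInvC` -/

theorem trivAtInf_inv142 {w : InfinitePlace K} {u : G K} (h : TrivAtInf w u) :
    TrivAtInf w u⁻¹ := by
  rw [trivAtInf_iff129] at *
  rw [map_inv, h, inv_one]

theorem inLevelGroup_inv142 {𝔫 : Ideal (𝓞 K)} {u : G K} (h : InLevelGroup 𝔫 u) :
    InLevelGroup 𝔫 u⁻¹ := by
  refine ⟨fun w => trivAtInf_inv142 (h.1 w), fun v i j => ?_⟩
  rw [inv_inv]
  exact ⟨(h.2 v i j).2, (h.2 v i j).1⟩

theorem rInvC142 : RInvC := by
  intro K _ _ D W good whit u hu g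
  obtain ⟨κ, hκadm, hκχ, hκF⟩ := good.right_inv.level u hu
  by_cases hg : InGPlus D.t D.n g
  · obtain ⟨mg, hadm⟩ := hg
    rw [whit.formula (g * u) (mg * κ) (adm_mul142 hadm hκadm), whit.formula g mg hadm]
    apply intT_congr142 D good.measured
    intro m hm
    have hadm' : Adm D.t D.n g (m * mg) := adm_torus1_mul142 hm hadm
    have e : m * (mg * κ) = (m * mg) * κ := (mul_assoc _ _ _).symm
    rw [e, hκF g (m * mg) (1, 0) hadm', good.torus.mul _ _ hadm'.1 hκadm.1, hκχ, mul_one]
  · have hgu : ¬ InGPlus D.t D.n (g * u) := by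
      rintro ⟨M, hM⟩
      obtain ⟨κ', hκ'adm, -, -⟩ := good.right_inv.level u⁻¹ (inLevelGroup_inv142 hu)
      apply hg
      refine ⟨M * κ', ?_⟩
      have := adm_mul142 hM hκ'adm
      rwa [mul_assoc, mul_inv_cancel, mul_one] at this
    rw [whit.off g hg, whit.off (g * u) hgu]

/-! ## `UnipC` -/

theorem det_upperUnip142 {nU : Adl K → G K} (h : IsUpperUnip nU) (x : Adl K) :
    Matrix.GeneralLinearGroup.det (nU x) = 1 := by
  apply Units.ext
  rw [Matrix.GeneralLinearGroup.val_det_apply, h x, Matrix.det_fin_two_of]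
  simp

theorem adm_unip_iff142 {t n : K} {nU : Adl K → G K} (h : IsUpperUnip nU) (x : Adl K)
    (g m : G K) : Adm t n (nU x * g) m ↔ Adm t n g m := by
  unfold Adm
  rw [map_mul, det_upperUnip142 h x, one_mul]

theorem qf_e1_142 (t n : K) : qf t n ((1, 0) : Adl K × Adl K) = 1 := by
  unfold qf
  simp

theorem unipC142 : UnipC := by
  intro K _ _ D W good whit nU hnU x g
  by_cases hg : InGPlus D.t D.n g
  · obtain ⟨mg, hadm⟩ := hg
    rw [whit.formula (nU x * g) mg ((adm_unip_iff142 hnU x g mg).mpr hadm),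
      whit.formula g mg hadm, ← intT_const_mul142]
    apply intT_congr142 D good.measured
    intro m hm
    have hadm' : Adm D.t D.n g (m * mg) := adm_torus1_mul142 hm hadm
    rw [good.weil.unip nU hnU x g (m * mg) (1, 0) hadm', qf_e1_142, mul_one, mul_assoc]
  · have hgu : ¬ InGPlus D.t D.n (nU x * g) := by
      rintro ⟨M, hM⟩
      exact hg ⟨M, (adm_unip_iff142 hnU x g M).mp hM⟩
    rw [whit.off g hg, whit.off (nU x * g) hgu, mul_zero]

end Fermat.Agent.LT.A2.H142

end
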