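import Fermat.Agent.LT.A2.WeilLocal
import Fermat.Agent.LT.H129.HeckeLevel
import Fermat.Agent.LT.H129.Cartan

/-!
# Row LT, tower A2, station `WeilLocalC`, leaf A2.03.8 `WL.WhitHeckeC`: THE CUT (helper142)

OFF-MAIN.  Definitions and `Prop`s only (no `sorry`, nothing assumed).  The top

    WL.WhitHeckeC ⟸ RInvC + UnipC + CentC + LocalAlgC + RecSplitC + RecInertC

is PROVED in `LT/A2/H142/HeckeTop.lean` (`whitHecke_of_leaves142`).

Vocabulary: `LT/H129` (helper129, byte-identical copies): `locFin129 v : GL₂(K_v) →* GL₂(𝔸_K)`,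
`finCompHom129`, `mkGL129`, `diag129`, `upperU129`, `rep129`, `IsMaxCpt129`.

## The mathematics

Fix `v ∤ π.level`, a uniformiser `ϖ` of `K_v`, and `g'` with trivial component at `v`.  Put
`w(x) = W(locFin x · g')`, `x ∈ GL₂(K_v)`, and `ω_j = w(diag(ϖ^j, 1))`.  Then

* `w(x k) = w(x)` for `k ∈ GL₂(𝒪_v)` (`RInvC`: `IsRightInv.level`; elements local at `v` commute
  with `g'`);
* `w(n(y) x) = ψ_v(y) w(x)` (`UnipC`: `IsWeil.unip` at `ξ = (1, 0)`, `Q(1, 0) = 1`);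
* `w(x ϖ) = b · w(x)` (`CentC`: `diag(ϖ, ϖ) = t(ϖ) d(ϖ²)`, `diagA`, `torA` with `μ = ϖ ∈ T`;
  the factor is `η(ϖ) χT(ϖ)`, which is `b` in both cases of `InducedAtT`);
* `q ω_{j+1} + b ω_{j-1} = √q a ω_j` for `j ≥ 0`, `ω_{-1} := 0` (`RecSplitC`, `RecInertC`):
    - SPLIT (`T(K_v)` contains an integral `m₁` with `det m₁` a uniformiser; `m̄₁ = det(m₁) m₁⁻¹`):
      `ω_j = q^{-j/2} (∑_{i ≤ j} α^{j-i} β^i) ω_0`, `α = χT(m₁)`, `β = χT(m̄₁)`, `a = α + β`,
      `b = α β`  (`T¹(𝔸) = ⨆_{i ∈ ℤ} (m₁/m̄₁)^i U`, `U` = the elements integral at `v`;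
      `F g' (u m') (m₁^{-i} m̄₁^{i+j} e₁) = [ -j ≤ i ≤ 0 ] F g' (u m') e₁` by `good_std`, `tor1`);
    - INERT (`IsInertAt`): `ω_{2i} = q^{-i} χT(ϖ)^i ω_0`, `ω_{2i+1} = 0` (not in `GL₂(𝔸)⁺`),
      `a = 0`, `b = -χT(ϖ)`  (`T¹(K_v)` is integral, no decomposition of the measure is needed);
* `LocalAlgC` (local, no adeles, no measure): the four properties above and `ψ_v` of conductor
  `𝒪_v` imply `∑_{h} w(x h) = √q a w(x)` for the standard coset system and EVERY `x ∈ GL₂(K_v)`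
  (Iwasawa `x = n(y) diag(y₁, y₂) k`; the sum over `k h` is the sum over `h`; `ω_j = 0` for
  `j < 0`; `∑_{r mod ϖ} ψ_v(ϖ⁻¹ u r) = 0`).

The top then follows from `H129.isHeckeEigenAt_of_one129`.
-/

set_option autoImplicit false

open IsDedekindDomain NumberField AutomorphicForm MeasureTheory
open scoped MatrixGroups

noncomputable section

namespace Fermat.Agent.LT.A2.H142

open Fermat.Agent.LT.H556 Fermat.Agent.LT.H556.A0 Fermat.Agent.LT.H129

variable {K : Type} [Field K] [NumberField K]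

/-! ## Vocabulary -/

/-- The hypotheses of `WL.WhitHeckeC` at the place `v`. -/
structure HCtx (D : KData K) (η : (Adl K)ˣ → ℂ) (W : G K → ℂ) (v : HeightOneSpectrum (𝓞 K)) :
    Prop where
  t1 : T1.T1Out K
  good : D.Good
  std : WL.IsStd D η
  ind : InducedDataT D.t D.n D.χT D.π
  whit : D.IsWhit W
  hv : ¬ v.asIdeal ∣ D.π.level

/-- The adele supported at `v` with component `x` (`0` at every other place). -/
def adv142 (v : HeightOneSpectrum (𝓞 K)) (x : v.adicCompletion K) : Adl K :=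
  (0, finSingle129 v false x)

/-- The local standard Hecke representatives `!![ϖ, r; 0, 1]` (`r` running over the
representatives `rep129` of the residue classes) and `!![1, 0; 0, ϖ]`;
`H129.stdHecke129 v ϖ h c = locFin129 v (stdLoc142 v ϖ h c)`. -/
def stdLoc142 (v : HeightOneSpectrum (𝓞 K)) (ϖ : v.adicCompletion K) (h : ϖ ≠ 0) :
    Option (𝓞 K ⧸ v.asIdeal) → GL (Fin 2) (v.adicCompletion K)
  | some c => mkGL129 ϖ (rep129 v c) 0 1 (by simpa using h)
  | none => mkGL129 1 0 0 ϖ (by simpa using h)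

/-- `diag(ϖ^j, 1) ∈ GL₂(K_v)`. -/
def dgl142 (v : HeightOneSpectrum (𝓞 K)) (ϖ : v.adicCompletion K) (h : ϖ ≠ 0) (j : ℕ) :
    GL (Fin 2) (v.adicCompletion K) :=
  diag129 (ϖ ^ j) 1 (pow_ne_zero j h) one_ne_zero

/-- `ω_j = W(diag(ϖ^j, 1)_v · g')`. -/
def om142 (W : G K → ℂ) (v : HeightOneSpectrum (𝓞 K)) (ϖ : v.adicCompletion K) (h : ϖ ≠ 0)
    (g' : G K) (j : ℕ) : ℂ :=
  W (locFin129 v (dgl142 v ϖ h j) * g')

/-- `q_v` and `√q_v` as complex numbers. -/
def qC142 (v : HeightOneSpectrum (𝓞 K)) : ℂ := ((Ideal.absNorm v.asIdeal : ℕ) : ℂ)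

/-- `√q_v` in the form of `A0.IsHeckeEigenAt`. -/
def sqC142 (v : HeightOneSpectrum (𝓞 K)) : ℂ :=
  ((Real.sqrt (Ideal.absNorm v.asIdeal : ℝ) : ℝ) : ℂ)

/-- **The recursion** `q ω_{j+1} + b ω_{j-1} = √q a ω_j`, `j ≥ 0`, `ω_{-1} = 0`. -/
def Rec142 (v : HeightOneSpectrum (𝓞 K)) (ω : ℕ → ℂ) (a b : ℂ) : Prop :=
  qC142 v * ω 1 = sqC142 v * a * ω 0 ∧
    ∀ j : ℕ, qC142 v * ω (j + 2) + b * ω j = sqC142 v * a * ω (j + 1)

/-- The place `v` is SPLIT for the torus: some integral element of `T(K_v)` has determinant a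
uniformiser (the negation of `WL.IsInertAt`). -/
def IsSplitAt142 (t n : K) (v : HeightOneSpectrum (𝓞 K)) : Prop :=
  ∃ m : G K, InTorus t n m ∧ IsLocalAtFin v m ∧ IsIntegralAt v m ∧
    Valued.v (finComp v m).det = WithZero.exp (-1 : ℤ)

/-! ## The leaves -/

/-- **A2.03.8.1 R-INV.**  `W` is right invariant under the level group (`IsRightInv.level`;
pointwise identity of the integrands, `m_{g u} = m_g κ`, `χT κ = 1`; outside `GL₂(𝔸)⁺` both
sides vanish). -/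
def RInvC : Prop :=
  ∀ (K : Type) [Field K] [NumberField K] (D : KData K) (W : G K → ℂ),
    D.Good → D.IsWhit W →
    ∀ u : G K, InLevelGroup D.π.level u → ∀ g : G K, W (g * u) = W g

/-- **A2.03.8.2 UNIP.**  `W(n(x) g) = ψ(x) W(g)` (`IsWeil.unip` at `ξ = (1, 0)`). -/
def UnipC : Prop :=
  ∀ (K : Type) [Field K] [NumberField K] (D : KData K) (W : G K → ℂ),
    D.Good → D.IsWhit W →
    ∀ nU : Adl K → G K, IsUpperUnip nU → ∀ (x : Adl K) (g : G K), W (nU x * g) = D.ψ x * W g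

/-- **A2.03.8.3 CENT.**  `W(g z) = b W(g)` for a scalar uniformiser `z` at `v`:
`z = t(c) d(c²)`, `F (z g) (z m) ξ = η(c) F g m ξ` (`diagA`, `torA` with `μ = z`,
`|c| |c²|^{-1/2} = 1`), so `W(g z) = η(c) χT(z) W(g)`; split: `η(c) = 1` (`quad.norm`,
`good_eta`) and `χT(z) = χT(m₁) χT(z m₁⁻¹) = b`; inert: `η(c) = -1`, `b = -χT(z)`. -/
def CentC : Prop :=
  ∀ (K : Type) [Field K] [NumberField K] (D : KData K) (η : (Adl K)ˣ → ℂ) (W : G K → ℂ)
    (v : HeightOneSpectrum (𝓞 K)), HCtx D η W v →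
    ∀ z : G K, IsScalarUniformizerAt v z → ∀ g : G K, W (g * z) = D.π.b v * W g

/-- **A2.03.8.4 LOCAL-ALG** (local; Mathlib + `LT/H129` only; no adeles, no measure).
A function `w` on `GL₂(K_v)` which is right `GL₂(𝒪_v)`-invariant, `(N, ψ_v)`-equivariant on the
left (`ψ_v` of conductor `𝒪_v`), with central character `b` at the uniformiser and whose values
`ω_j = w(diag(ϖ^j, 1))` satisfy the recursion, is an eigenfunction of the Hecke sum over the
standard coset system. -/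
def LocalAlgC : Prop :=
  ∀ (K : Type) [Field K] [NumberField K] (v : HeightOneSpectrum (𝓞 K))
    (ϖ : v.adicCompletion K) (hϖ : Valued.v ϖ = WithZero.exp (-1 : ℤ))
    (ψv : v.adicCompletion K → ℂ) (w : GL (Fin 2) (v.adicCompletion K) → ℂ) (a b : ℂ),
    (∀ x y : v.adicCompletion K, ψv (x + y) = ψv x * ψv y) →
    (∀ x : v.adicCompletion K, x ∈ v.adicCompletionIntegers K → ψv x = 1) →
    (∃ x : v.adicCompletion K, Valued.v x = WithZero.exp (1 : ℤ) ∧ ψv x ≠ 1) →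
    (∀ k : GL (Fin 2) (v.adicCompletion K), IsMaxCpt129 (v.adicCompletionIntegers K) k →
      ∀ x : GL (Fin 2) (v.adicCompletion K), w (x * k) = w x) →
    (∀ (y : v.adicCompletion K) (x : GL (Fin 2) (v.adicCompletion K)),
      w (upperU129 y * x) = ψv y * w x) →
    (∀ x : GL (Fin 2) (v.adicCompletion K),
      w (x * diag129 ϖ ϖ (unif_ne_zero129 v hϖ) (unif_ne_zero129 v hϖ)) = b * w x) →
    Rec142 v (fun j => w (dgl142 v ϖ (unif_ne_zero129 v hϖ) j)) a b →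
    ∀ x : GL (Fin 2) (v.adicCompletion K),
      ∑ᶠ c : Option (𝓞 K ⧸ v.asIdeal), w (x * stdLoc142 v ϖ (unif_ne_zero129 v hϖ) c)
        = sqC142 v * a * w x

/-- **A2.03.8.5 REC-SPLIT.**  The recursion at a split place, for every `g'` with trivial
component at `v` and every uniformiser. -/
def RecSplitC : Prop :=
  ∀ (K : Type) [Field K] [NumberField K] (D : KData K) (η : (Adl K)ˣ → ℂ) (W : G K → ℂ)
    (v : HeightOneSpectrum (𝓞 K)), HCtx D η W v → IsSplitAt142 D.t D.n v →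
    ∀ (ϖ : v.adicCompletion K) (hϖ : Valued.v ϖ = WithZero.exp (-1 : ℤ)) (g' : G K),
      TrivAtFin v g' →
      Rec142 v (om142 W v ϖ (unif_ne_zero129 v hϖ) g') (D.π.a v) (D.π.b v)

/-- **A2.03.8.6 REC-INERT.**  The recursion at an inert place. -/
def RecInertC : Prop :=
  ∀ (K : Type) [Field K] [NumberField K] (D : KData K) (η : (Adl K)ˣ → ℂ) (W : G K → ℂ)
    (v : HeightOneSpectrum (𝓞 K)), HCtx D η W v → WL.IsInertAt D.t D.n v →
    ∀ (ϖ : v.adicCompletion K) (hϖ : Valued.v ϖ = WithZero.exp (-1 : ℤ)) (g' : G K),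
      TrivAtFin v g' →
      Rec142 v (om142 W v ϖ (unif_ne_zero129 v hϖ) g') (D.π.a v) (D.π.b v)

end Fermat.Agent.LT.A2.H142

end
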