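import Fermat.Agent.LT.A2.H142.HeckeBasic

/-!
# Row LT, tower A2, leaf A2.03.8 `WL.WhitHeckeC`: THE TOP (helper142)

OFF-MAIN.  `whitHecke_of_leaves142 : CentC → LocalAlgC → RecSplitC → RecInertC → WL.WhitHeckeC`
(`RInvC`, `UnipC` are proved in `HeckeBasic.lean`), via `H129.isHeckeEigenAt_of_one129`.
-/

set_option autoImplicit false

open IsDedekindDomain NumberField AutomorphicForm MeasureTheory
open scoped MatrixGroups

noncomputable section

namespace Fermat.Agent.LT.A2.H142

open Fermat.Agent.LT.H556 Fermat.Agent.LT.H556.A0 Fermat.Agent.LT.H129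

variable {K : Type} [Field K] [NumberField K]

/-! ## Local elements commute with elements which are trivial at `v` -/

theorem locFin_comm142 (v : HeightOneSpectrum (𝓞 K)) (y : GL (Fin 2) (v.adicCompletion K))
    {g' : G K} (hg' : TrivAtFin v g') : locFin129 v y * g' = g' * locFin129 v y := by
  rw [trivAtFin_iff129] at hg'
  apply G_ext129
  · intro w
    rw [map_mul, map_mul, infCompHom129_locFin129, one_mul, mul_one]
  · intro v'
    rw [map_mul, map_mul]
    by_cases h : v' = v
    · subst h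
      rw [hg', one_mul, mul_one]
    · rw [finCompHom129_locFin129_of_ne v y h, one_mul, mul_one]

/-- Every `g` is (local at `v`) · (trivial at `v`). -/
theorem exists_local_decomp142 (v : HeightOneSpectrum (𝓞 K)) (g : G K) :
    ∃ g' : G K, TrivAtFin v g' ∧ g = locFin129 v (finCompHom129 v g) * g' := by
  refine ⟨(locFin129 v (finCompHom129 v g))⁻¹ * g, ?_, ?_⟩
  · rw [trivAtFin_iff129, map_mul, map_inv, finCompHom129_locFin129, inv_mul_cancel]
  · rw [mul_inv_cancel_left]

/-! ## The adele supported at `v` -/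

theorem adv142_fst (v : HeightOneSpectrum (𝓞 K)) (x : v.adicCompletion K)
    (w : InfinitePlace K) : (adv142 v x).1 w = 0 := rfl

theorem adv142_snd_same (v : HeightOneSpectrum (𝓞 K)) (x : v.adicCompletion K) :
    (adv142 v x).2 v = x := finSingle129_same v false x

theorem adv142_snd_of_ne (v : HeightOneSpectrum (𝓞 K)) (x : v.adicCompletion K)
    {v' : HeightOneSpectrum (𝓞 K)} (h : v' ≠ v) : (adv142 v x).2 v' = 0 := by
  show finSingle129 v false x v' = 0
  rw [finSingle129_of_ne v false x h]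
  rfl

theorem adlAtFin_adv142 (v : HeightOneSpectrum (𝓞 K)) (x : v.adicCompletion K) :
    WL.AdlAtFin v (adv142 v x) :=
  ⟨fun w => adv142_fst v x w, fun _ h => adv142_snd_of_ne v x h⟩

theorem eq_adv142_of_adlAtFin {v : HeightOneSpectrum (𝓞 K)} {x : Adl K}
    (h : WL.AdlAtFin v x) : x = adv142 v (x.2 v) := by
  apply adele_ext129
  · intro w
    rw [h.1 w, adv142_fst]
  · intro v'
    by_cases hv : v' = v
    · subst hv
      rw [adv142_snd_same]
    · rw [h.2 v' hv, adv142_snd_of_ne v _ hv]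

theorem adv142_add (v : HeightOneSpectrum (𝓞 K)) (x y : v.adicCompletion K) :
    adv142 v (x + y) = adv142 v x + adv142 v y := by
  apply adele_ext129
  · intro w
    show (adv142 v (x + y)).1 w = (adv142 v x).1 w + (adv142 v y).1 w
    rw [adv142_fst, adv142_fst, adv142_fst, add_zero]
  · intro v'
    show (adv142 v (x + y)).2 v' = (adv142 v x).2 v' + (adv142 v y).2 v'
    by_cases hv : v' = v
    · subst hv
      rw [adv142_snd_same, adv142_snd_same, adv142_snd_same]
    · rw [adv142_snd_of_ne v _ hv, adv142_snd_of_ne v _ hv, adv142_snd_of_ne v _ hv, add_zero]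

/-! ## The upper unipotent parametrisation -/

/-- The upper unipotent parametrisation `x ↦ !![1, x; 0, 1]` of `GL₂(𝔸_K)`. -/
def nU142 (x : Adl K) : G K where
  val := !![1, x; 0, 1]
  inv := !![1, -x; 0, 1]
  val_inv := by
    ext i j
    fin_cases i <;> fin_cases j <;> simp [Matrix.mul_apply, Fin.sum_univ_two]
  inv_val := by
    ext i j
    fin_cases i <;> fin_cases j <;> simp [Matrix.mul_apply, Fin.sum_univ_two]

theorem isUpperUnip_nU142 : IsUpperUnip (nU142 (K := K)) := fun _ => rfl

theorem map_unip142 {R S : Type*} [CommRing R] [CommRing S] (f : R →+* S) (a : R) :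
    (!![1, a; 0, 1] : Matrix (Fin 2) (Fin 2) R).map f = !![1, f a; 0, 1] := by
  ext i j
  fin_cases i <;> fin_cases j <;> simp [Matrix.map_apply]

theorem one_eq_unip142 {S : Type*} [CommRing S] :
    (1 : Matrix (Fin 2) (Fin 2) S) = !![1, 0; 0, 1] := by
  ext i j
  fin_cases i <;> fin_cases j <;> simp

theorem nU142_adv (v : HeightOneSpectrum (𝓞 K)) (y : v.adicCompletion K) :
    nU142 (adv142 v y) = locFin129 v (upperU129 y) := by
  apply Units.ext
  rw [coe_locFin129]
  show (!![1, adv142 v y; 0, 1] : Matrix (Fin 2) (Fin 2) (Adl K))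
    = locMat129 v ((upperU129 y : GL (Fin 2) (v.adicCompletion K)) :
        Matrix (Fin 2) (Fin 2) (v.adicCompletion K))
  have hc : ((upperU129 y : GL (Fin 2) (v.adicCompletion K)) :
      Matrix (Fin 2) (Fin 2) (v.adicCompletion K)) = !![1, y; 0, 1] := rfl
  rw [hc]
  apply adeleMatrix_ext129
  · intro w
    rw [locMat129_map_inf, map_unip142, one_eq_unip142]
    have : evI129 w (adv142 v y) = 0 := adv142_fst v y w
    rw [this]
  · intro v'
    by_cases h : v' = v
    · subst h
      rw [locMat129_map_same, map_unip142]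
      have : evF129 v' (adv142 v' y) = y := adv142_snd_same v' y
      rw [this]
    · rw [locMat129_map_of_ne v _ h, map_unip142, one_eq_unip142]
      have : evF129 v' (adv142 v y) = 0 := adv142_snd_of_ne v y h
      rw [this]

/-! ## The standard coset system -/

theorem stdHecke129_eq142 (v : HeightOneSpectrum (𝓞 K)) (ϖ : v.adicCompletion K) (h : ϖ ≠ 0)
    (c : Option (𝓞 K ⧸ v.asIdeal)) :
    stdHecke129 v ϖ h c = locFin129 v (stdLoc142 v ϖ h c) := by
  cases c <;> rfl

theorem finite_residue142 (v : HeightOneSpectrum (𝓞 K)) : Finite (𝓞 K ⧸ v.asIdeal) := by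
  apply Nat.finite_of_card_ne_zero
  rw [← Submodule.cardQuot_apply, ← Ideal.absNorm_apply]
  exact ne_of_gt (lt_trans Nat.zero_lt_one (NumberField.HeightOneSpectrum.one_lt_absNorm v))

theorem stdHecke129_injective142 (v : HeightOneSpectrum (𝓞 K)) {ϖ : v.adicCompletion K}
    (hϖ : Valued.v ϖ = WithZero.exp (-1 : ℤ)) :
    Function.Injective (stdHecke129 v ϖ (unif_ne_zero129 v hϖ)) := by
  intro a b hab
  by_contra hne
  apply stdHecke129_not_int v hϖ hne
  rw [hab, inv_mul_cancel]
  intro i j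
  have : finComp v (1 : G K) = 1 := by
    rw [← coe_finCompHom129, map_one]; rfl
  rw [this]
  by_cases hij : i = j
  · subst hij; simpa using (v.adicCompletionIntegers K).one_mem
  · simpa [hij] using (v.adicCompletionIntegers K).zero_mem

open scoped Classical in
theorem isHeckeCosetSystem_std142 (v : HeightOneSpectrum (𝓞 K)) {ϖ : v.adicCompletion K}
    (hϖ : Valued.v ϖ = WithZero.exp (-1 : ℤ)) [Fintype (𝓞 K ⧸ v.asIdeal)] :
    IsHeckeCosetSystem v
      ((Finset.univ : Finset (Option (𝓞 K ⧸ v.asIdeal))).image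
        (stdHecke129 v ϖ (unif_ne_zero129 v hϖ))) := by
  refine ⟨?_, ?_, ?_⟩
  · rw [Finset.card_image_of_injective _ (stdHecke129_injective142 v hϖ), Finset.card_univ,
      Fintype.card_option, Ideal.absNorm_apply, Submodule.cardQuot_apply,
      Nat.card_eq_fintype_card]
  · intro h hh
    obtain ⟨a, -, rfl⟩ := Finset.mem_image.mp hh
    exact stdHecke129_props v hϖ a
  · intro h hh h' hh' hne
    obtain ⟨a, -, rfl⟩ := Finset.mem_image.mp hh
    obtain ⟨b, -, rfl⟩ := Finset.mem_image.mp hh'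
    exact stdHecke129_not_int v hϖ (fun e => hne (by rw [e]))

theorem isScalarUniformizerAt_std142 (v : HeightOneSpectrum (𝓞 K)) {ϖ : v.adicCompletion K}
    (hϖ : Valued.v ϖ = WithZero.exp (-1 : ℤ)) :
    IsScalarUniformizerAt v
      (locFin129 v (diag129 ϖ ϖ (unif_ne_zero129 v hϖ) (unif_ne_zero129 v hϖ))) := by
  refine ⟨isLocalAtFin_locFin129 v _, ϖ, hϖ, ?_⟩
  rw [finComp_locFin129]
  show (!![ϖ, 0; 0, ϖ] : Matrix (Fin 2) (Fin 2) (v.adicCompletion K)) = _
  ext i j
  fin_cases i <;> fin_cases j <;> simp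

theorem isLocalMaxCptAt_locFin142 (v : HeightOneSpectrum (𝓞 K))
    {k : GL (Fin 2) (v.adicCompletion K)} (hk : IsMaxCpt129 (v.adicCompletionIntegers K) k) :
    IsLocalMaxCptAt129 v (locFin129 v k) := by
  refine ⟨isLocalAtFin_locFin129 v k, ?_, ?_⟩
  · rw [← isInt129_finCompHom_iff, finCompHom129_locFin129]
    exact hk.1
  · rw [← isInt129_finCompHom_iff, map_inv, finCompHom129_locFin129]
    exact hk.2

/-! ## The top -/

theorem split_of_not_inert142 {t n : K} {v : HeightOneSpectrum (𝓞 K)}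
    (h : ¬ WL.IsInertAt t n v) : IsSplitAt142 t n v := by
  by_contra hns
  apply h
  intro m hm hloc hint hval
  exact hns ⟨m, hm, hloc, hint, hval⟩

/-- **The top of the cut of `WL.WhitHeckeC`.** -/
theorem whitHecke_of_leaves142 (hC : CentC) (hL : LocalAlgC) (hS : RecSplitC) (hI : RecInertC) :
    WL.WhitHeckeC := by
  classical
  intro K _ _ D η t1 good std ind W whit v hv
  have ctx : HCtx D η W v := ⟨t1, good, std, ind, whit, hv⟩
  have hR := rInvC142 K D W good whit
  have hU := unipC142 K D W good whit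
  obtain ⟨ϖ, hϖ⟩ := exists_unif129 v
  have hϖ0 := unif_ne_zero129 v hϖ
  haveI : Finite (𝓞 K ⧸ v.asIdeal) := finite_residue142 v
  letI : Fintype (𝓞 K ⧸ v.asIdeal) := Fintype.ofFinite _
  refine isHeckeEigenAt_of_one129 hv W hR (D.π.a v) (D.π.b v)
    (isHeckeCosetSystem_std142 v hϖ) ?_ (isScalarUniformizerAt_std142 v hϖ)
    (hC K D η W v ctx _ (isScalarUniformizerAt_std142 v hϖ))
  intro g
  obtain ⟨g', hg', hg⟩ := exists_local_decomp142 v g
  set x := finCompHom129 v g with hx
  -- the local function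
  set w : GL (Fin 2) (v.adicCompletion K) → ℂ := fun y => W (locFin129 v y * g') with hw
  set ψv : v.adicCompletion K → ℂ := fun y => D.ψ (adv142 v y) with hψv
  have h1 : ∀ y y' : v.adicCompletion K, ψv (y + y') = ψv y * ψv y' := by
    intro y y'
    show D.ψ (adv142 v (y + y')) = D.ψ (adv142 v y) * D.ψ (adv142 v y')
    rw [adv142_add, good.char.map_add]
  have h2 : ∀ y : v.adicCompletion K, y ∈ v.adicCompletionIntegers K → ψv y = 1 := by
    intro y hy
    refine (std.good_psi v hv).1 (adv142 v y) (adlAtFin_adv142 v y) ?_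
    rw [adv142_snd_same]
    exact hy
  have h3 : ∃ y : v.adicCompletion K, Valued.v y = WithZero.exp (1 : ℤ) ∧ ψv y ≠ 1 := by
    obtain ⟨y, hy1, hy2, hy3⟩ := (std.good_psi v hv).2
    refine ⟨y.2 v, hy2, ?_⟩
    show D.ψ (adv142 v (y.2 v)) ≠ 1
    rw [← eq_adv142_of_adlAtFin hy1]
    exact hy3
  have h4 : ∀ k : GL (Fin 2) (v.adicCompletion K),
      IsMaxCpt129 (v.adicCompletionIntegers K) k →
      ∀ y : GL (Fin 2) (v.adicCompletion K), w (y * k) = w y := by
    intro k hk y
    show W (locFin129 v (y * k) * g') = W (locFin129 v y * g')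
    rw [map_mul, mul_assoc, locFin_comm142 v k hg', ← mul_assoc]
    exact hR _ (inLevelGroup_of_localMaxCpt129 hv (isLocalMaxCptAt_locFin142 v hk)) _
  have h5 : ∀ (y : v.adicCompletion K) (z : GL (Fin 2) (v.adicCompletion K)),
      w (upperU129 y * z) = ψv y * w z := by
    intro y z
    show W (locFin129 v (upperU129 y * z) * g') = D.ψ (adv142 v y) * W (locFin129 v z * g')
    rw [map_mul, mul_assoc, ← nU142_adv]
    exact hU nU142 isUpperUnip_nU142 _ _
  have h6 : ∀ y : GL (Fin 2) (v.adicCompletion K),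
      w (y * diag129 ϖ ϖ hϖ0 hϖ0) = D.π.b v * w y := by
    intro y
    show W (locFin129 v (y * diag129 ϖ ϖ hϖ0 hϖ0) * g') = D.π.b v * W (locFin129 v y * g')
    rw [map_mul, mul_assoc, locFin_comm142 v _ hg', ← mul_assoc]
    exact hC K D η W v ctx _ (isScalarUniformizerAt_std142 v hϖ) _
  have hrec : Rec142 v (fun j => w (dgl142 v ϖ hϖ0 j)) (D.π.a v) (D.π.b v) := by
    by_cases hin : WL.IsInertAt D.t D.n v
    · exact hI K D η W v ctx hin ϖ hϖ g' hg'
    · exact hS K D η W v ctx (split_of_not_inert142 hin) ϖ hϖ g' hg'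
  have key := hL K v ϖ hϖ ψv w (D.π.a v) (D.π.b v) h1 h2 h3 h4 h5 h6 hrec x
  rw [finsum_eq_sum_of_fintype] at key
  have hWg : W g = w x := by
    show W g = W (locFin129 v x * g')
    rw [← hg]
  rw [Finset.sum_image (fun a _ b _ h => stdHecke129_injective142 v hϖ h), hWg]
  have hsum : ∀ c : Option (𝓞 K ⧸ v.asIdeal),
      W (g * stdHecke129 v ϖ hϖ0 c) = w (x * stdLoc142 v ϖ hϖ0 c) := by
    intro c
    show W (g * stdHecke129 v ϖ hϖ0 c) = W (locFin129 v (x * stdLoc142 v ϖ hϖ0 c) * g')
    rw [stdHecke129_eq142, map_mul, mul_assoc (locFin129 v x), locFin_comm142 v _ hg',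
      ← mul_assoc, ← hg]
  rw [Finset.sum_congr rfl (fun c _ => hsum c)]
  exact key

end Fermat.Agent.LT.A2.H142

end
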